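/-
Project BAD, layer L-MOD, block PHI (helper38): skeleton (node statements).
-/
import Mathlib
import Fermat.Agent.BAD.Model.Phi.Defs

set_option autoImplicit false

noncomputable section

namespace Fermat.Agent.BAD.Model.Phi

open ModularCurve Polynomial Fermat.Agent.S24 Fermat.Agent.S24.B Fermat.Agent.Lib.HeckeHom
open scoped OnePoint MatrixGroups

/-! ### A. pure algebra (file `Phi/Sym.lean`) -/

/-- PHI-A (Newton): in characteristic zero the coefficients of `∏ (X - r i)` lie in every subfield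
containing the power sums of the `r i`. -/
theorem coeff_prod_mem_of_psum_mem {L : Type*} [Field L] [CharZero L] (L₀ : Subfield L)
    {ι : Type*} [Fintype ι] (r : ι → L) (h : ∀ m : ℕ, ∑ i, r i ^ m ∈ L₀) (k : ℕ) :
    (∏ i, (X - C (r i))).coeff k ∈ L₀ := by
  sorry

/-! ### D. polynomials in `J (u ^ q)` (file `Phi/PolyJ.lean`) -/

section D

variable (q : ℕ) [NeZero q]

/-- PHI-D0: `p (Jhat)` is a series in `u ^ q`. -/
theorem aeval_Jhat (p : Kbar[X]) : aeval (Jhat q) p = qExpand Kbar q (aeval (Jser 1) p) := by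
  sorry

/-- PHI-D1: the degree and the top coefficient of `p` are read off the polar part of `p (Jhat)`. -/
theorem natDegree_le_of_coeff_aeval_Jhat (p : Kbar[X]) (m : ℕ)
    (h : ∀ n : ℤ, n < -((q : ℤ) * m) → (aeval (Jhat q) p).coeff n = 0) :
    p.natDegree ≤ m ∧ p.coeff m = (aeval (Jhat q) p).coeff (-((q : ℤ) * m)) := by
  sorry

/-- PHI-D2: if `p (Jhat)` has coefficients in the subring `B`, so has `p`. -/
theorem coeff_mem_of_aeval_Jhat_mem (B : Subring Kbar) (p : Kbar[X])
    (h : aeval (Jhat q) p ∈ serIn B) (i : ℕ) : p.coeff i ∈ B := by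
  sorry

end D

/-! ### B. formal analysis of `PhiSer` -/

section B

variable (q : ℕ) [NeZero q]

/-- PHI-B1 (file `Phi/Int.lean`): the coefficients are algebraic integers. -/
theorem isIntegral_coeff_PhiSer (k : ℕ) (n : ℤ) : IsIntegral ℤ (((PhiSer q).coeff k).coeff n) := by
  sorry

/-- PHI-B2a (file `Phi/Rat.lean`): the power sums have rational coefficients. -/
theorem psum_rtS_mem (m : ℕ) :
    ∑ i : OnePoint (ZMod q), rtS q i ^ m ∈ (coeffEmb Kbar).fieldRange := by
  sorry

/-- PHI-B2 (file `Phi/Rat.lean`). -/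
theorem coeff_PhiSer_mem_fieldRange (k : ℕ) : (PhiSer q).coeff k ∈ (coeffEmb Kbar).fieldRange :=
  haveI : CharZero (LaurentSeries Kbar) :=
    charZero_of_injective_algebraMap (algebraMap Kbar (LaurentSeries Kbar)).injective
  coeff_prod_mem_of_psum_mem _ _ (psum_rtS_mem q) k

/-- PHI-B12 (file `Phi/Rat.lean`): the coefficients are integers. -/
theorem coeff_PhiSer_mem_serIn (k : ℕ) :
    (PhiSer q).coeff k ∈ serIn (Int.castRingHom Kbar).range := by
  sorry

/-- PHI-B3a (file `Phi/Order.lean`): generic bound for the pole orders of the coefficients. -/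
theorem coeff_coeff_prod_eq_zero {ι : Type*} (s : Finset ι) (R : ι → LaurentSeries Kbar)
    (hR : ∀ i ∈ s, ∀ n : ℤ, n < -1 → (R i).coeff n = 0) (k : ℕ) (n : ℤ)
    (hn : n < (k : ℤ) - s.card) : ((∏ i ∈ s, (X - C (R i))).coeff k).coeff n = 0 := by
  sorry

/-- PHI-B3b (file `Phi/Lead.lean`): the leading coefficient of `∏_b (- J (ζ ^ b u))`. -/
theorem coeff_coeff_zero_PsiSer : ((PsiSer q).coeff 0).coeff (-(q : ℤ)) = -1 := by
  sorry

/-- PHI-B3c (file `Phi/Order.lean`). -/
theorem coeff_coeff_PsiSer_eq_zero (k : ℕ) (n : ℤ) (hn : n < (k : ℤ) - q) :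
    ((PsiSer q).coeff k).coeff n = 0 := by
  sorry

/-- PHI-B3d (file `Phi/Order.lean`). -/
theorem coeff_coeff_PhiSer_eq_zero (k : ℕ) (n : ℤ) (hn : n < (k : ℤ) - q - (q : ℤ) * q) :
    ((PhiSer q).coeff k).coeff n = 0 := by
  sorry

/-- PHI-B3e (file `Phi/Order.lean`). -/
theorem coeff_coeff_zero_PhiSer :
    ((PhiSer q).coeff 0).coeff (-((q : ℤ) * (q + 1 : ℕ))) = 1 := by
  sorry

/-- PHI-B3f (file `Phi/Order.lean`). -/
theorem coeff_coeff_q_PhiSer (hq : 2 ≤ q) :
    ((PhiSer q).coeff q).coeff (-((q : ℤ) * q)) = -1 := by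
  sorry

theorem monic_PhiSer : (PhiSer q).Monic := monic_prod_of_monic _ _ fun _ _ => monic_X_sub_C _

theorem natDegree_PhiSer : (PhiSer q).natDegree = q + 1 := by
  sorry

end B

/-! ### C. the analytic input -/

section C

variable (q : ℕ) [NeZero q]

/-- PHI-C1 (file `Phi/Expansion.lean`). -/
theorem texp_rtAL (i : OnePoint (ZMod q)) : texp q (rtAL q i) = rtS q i := by
  sorry

/-- PHI-C2 (file `Phi/Perm.lean`). -/
theorem exists_perm_smul_rtAL [Fact q.Prime] (γ : SL(2, ℤ)) :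
    ∃ σ : Equiv.Perm (OnePoint (ZMod q)), ∀ i, γ • rtAL q i = rtAL q (σ i) := by
  sorry

/-- PHI-C3 (file `Phi/Invariant.lean`). -/
theorem smul_coeff_PhiAL [Fact q.Prime] (γ : SL(2, ℤ)) (k : ℕ) :
    γ • (PhiAL q).coeff k = (PhiAL q).coeff k := by
  sorry

/-- PHI-C4 (file `Phi/Invariant.lean`). -/
theorem map_texp_PhiAL : (PhiAL q).map (texp q).toRingHom = PhiSer q := by
  sorry

/-- PHI-C5 (file `Phi/Invariant.lean`): the coefficients of the modular polynomial are polynomials
in `j`. -/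
theorem exists_poly_coeff_PhiSer [Fact q.Prime] (k : ℕ) :
    ∃ p : Kbar[X], (PhiSer q).coeff k = aeval (Jhat q) p := by
  sorry

end C

end Fermat.Agent.BAD.Model.Phi
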